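/-
S30 — squad-lead chain (helper49): the frozen statement S30 from input (T) ALONE.

`result_of_T : (∀ N p, H330.TorsionRelations N p) → <frozen S30 statement>`

All other inputs of the adic module layer are discharged from `main`:
* (K') the Kummer tower: `Chain.kumPackage` (K1 H509, K3 helper42/H282, K2 H389, UNIQ/INJ/ADD H822,
  HECKE H395, tower compatibility H450);
* (F)  finiteness of `J₀(N)[p]`: ONTO `H810.exists_isKum_of_torsion` + `Fin.finite_torsion_of`;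
* (P)  `H709.exists_parEigen`;  (Sm) S29 M3;  (GH) H571;  top glue H990; adic layer H330.

(T) = `H330.TorsionRelations N p`: inertia at `ℓ ∤ N p` acts trivially on `J₀(N)(ℚ̄)[p^∞]` and every
Frobenius at `ℓ` satisfies `σ² - T_ℓ σ + ℓ = 0` there.  It follows from each of the interfaces of
rows S37/S18, see `H330/AdicTorsionRel.lean` (`torsionRelations_of_redData`, `_of_pieces`,
`_of_weakRedData`).  The final `Fermat/Agent/S30.lean` is `Chain.result_of_T hT`.
-/
import Fermat.Agent.S30.Chain.Package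
import Fermat.Agent.S30.H330.AdicFinal
import Fermat.Agent.S30.H810.Onto

set_option autoImplicit false
set_option linter.overlappingInstances false

noncomputable section

namespace Fermat.Agent.S30.Chain

open Fermat.Agent.S29 Fermat.Agent.S29.M4b ModularCurve Polynomial

/-- **S30 from (T) alone.** -/
theorem result_of_T
    (hT : ∀ (N : ℕ) [NeZero N] (p : ℕ) [Fact p.Prime],
      Fermat.Agent.S30.H330.TorsionRelations N p) :
    ∀ (p : ℕ) [Fact p.Prime] (N : ℕ) [NeZero N] (S : Finset ℕ)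
      (_hpS : p ∈ S) (_hNS : ∀ q : ℕ, q.Prime → q ∣ N → q ∈ S)
      (𝒪' : Type) [CommRing 𝒪'] [IsDomain 𝒪'] [IsDiscreteValuationRing 𝒪']
      [IsAdicComplete (IsLocalRing.maximalIdeal 𝒪') 𝒪'] [Finite (IsLocalRing.ResidueField 𝒪')]
      [CharZero 𝒪'] (_hp𝒪' : (p : 𝒪') ∈ IsLocalRing.maximalIdeal 𝒪')
      (χ : CuspForm.heckeAlgebra N 2 (↑S : Set ℕ) →+* 𝒪'),
      ∃ (𝒪'' : Type) (_ : CommRing 𝒪'') (_ : IsDomain 𝒪'') (_ : IsDiscreteValuationRing 𝒪'')
        (_ : IsAdicComplete (IsLocalRing.maximalIdeal 𝒪'') 𝒪'')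
        (_ : Finite (IsLocalRing.ResidueField 𝒪'')) (_ : CharZero 𝒪'')
        (_ : Algebra 𝒪' 𝒪'') (_ : Module.Finite 𝒪' 𝒪'') (_ : IsLocalHom (algebraMap 𝒪' 𝒪'')),
      Function.Injective (algebraMap 𝒪' 𝒪'') ∧
      ∃ ρ : GaloisRepAdic 𝒪'',
        (∀ (ℓ : ℕ) (hℓ : ℓ.Prime) (hℓN : ¬ ℓ ∣ N) (hℓS : ℓ ∉ (↑S : Set ℕ)),
          ∀ A : ValuationSubring (AlgebraicClosure ℚ), A.LiesOverPrime ℓ →
            ∀ σ : AlgebraicClosure ℚ ≃ₐ[ℚ] AlgebraicClosure ℚ, A.IsFrobeniusAt σ ℓ →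
              LinearMap.charpoly (ρ.ρ σ) =
                X ^ 2 - C (algebraMap 𝒪' 𝒪'' (χ (CuspForm.heckeAlgebra.T hℓ hℓN hℓS))) * X
                  + C ((ℓ : 𝒪''))) ∧
        (∀ q : ℕ, q.Prime → ¬ q ∣ N → q ≠ p → ρ.IsUnramifiedAt q) :=
  Fermat.Agent.S30.H330.result_of_packages
    (fun N _ p hp n =>
      haveI : NeZero (p ^ n) := ⟨pow_ne_zero n hp.out.ne_zero⟩
      kumPackage N (p ^ n))
    (fun N _ p hp x hx =>
      haveI : NeZero p := ⟨hp.out.ne_zero⟩
      Fermat.Agent.S30.H810.exists_isKum_of_torsion N p hx)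
    hT

end Fermat.Agent.S30.Chain
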